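/-
S35 (helper96): the coefficient embedding `iota` of the frozen S35 is injective.

In the frozen statement `iota : chig.range →+* O'` is an arbitrary ring homomorphism from the
range of the eigencharacter `chig : heckeAlgebra M 2 S →+* ℂ` to a ring `O'` of characteristic
zero.  Since the Hecke algebra is a finite `ℤ`-module (S22), `chig.range` is an integral domain,
integral over `ℤ`, and the kernel of `iota` is an ideal meeting `ℤ` trivially, hence zero.
Consequence: `chig t ≠ 0 → (iota.comp chig.rangeRestrict) t ≠ 0` (used to pass from
"`chig (P(T)) ≠ 0`" (NP1) to "`χ (P(T)) ≠ 0`" (NEWPROJ / KeyStatement)).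
-/
import Mathlib

set_option autoImplicit false

namespace Fermat.Agent.S35.H96

/-- A ring homomorphism from the range of `chig : A →+* B` (`A` a finite `ℤ`-module, `B` a
domain) to a ring of characteristic zero is injective. -/
theorem iota_injective_of_finite {A B O' : Type*} [CommRing A] [Module.Finite ℤ A]
    [CommRing B] [IsDomain B] [CommRing O'] [CharZero O']
    (chig : A →+* B) (iota : chig.range →+* O') : Function.Injective iota := by
  have hfin : Module.Finite ℤ chig.range :=
    Module.Finite.of_surjective (chig.rangeRestrict.toAddMonoidHom.toIntLinearMap)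
      chig.rangeRestrict_surjective
  have hint : Algebra.IsIntegral ℤ chig.range := Algebra.IsIntegral.of_finite ℤ chig.range
  rw [RingHom.injective_iff_ker_eq_bot]
  apply Ideal.eq_bot_of_comap_eq_bot (R := ℤ)
  rw [eq_bot_iff]
  intro n hn
  rw [Ideal.mem_comap, RingHom.mem_ker, eq_intCast, map_intCast] at hn
  rw [Ideal.mem_bot]
  exact_mod_cast hn

/-- `chig t ≠ 0` implies `(iota ∘ chig) t ≠ 0`. -/
theorem comp_rangeRestrict_ne_zero {A B O' : Type*} [CommRing A] [Module.Finite ℤ A]
    [CommRing B] [IsDomain B] [CommRing O'] [CharZero O']
    (chig : A →+* B) (iota : chig.range →+* O') {t : A} (ht : chig t ≠ 0) :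
    (iota.comp chig.rangeRestrict) t ≠ 0 := by
  intro h
  apply ht
  have h1 : iota (chig.rangeRestrict t) = iota 0 := by rw [map_zero]; exact h
  have h2 := iota_injective_of_finite chig iota h1
  exact congrArg Subtype.val h2

/-- Conversely. -/
theorem comp_rangeRestrict_eq_zero_iff {A B O' : Type*} [CommRing A] [Module.Finite ℤ A]
    [CommRing B] [IsDomain B] [CommRing O'] [CharZero O']
    (chig : A →+* B) (iota : chig.range →+* O') (t : A) :
    (iota.comp chig.rangeRestrict) t = 0 ↔ chig t = 0 := by
  constructor
  · intro h
    by_contra ht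
    exact comp_rangeRestrict_ne_zero chig iota ht h
  · intro h
    have : chig.rangeRestrict t = 0 := Subtype.ext h
    show iota (chig.rangeRestrict t) = 0
    rw [this, map_zero]

end Fermat.Agent.S35.H96
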