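/-
S35 (helper96): `iota` of the frozen S35 is injective — the instance for the Hecke algebra
(finiteness over `ℤ` = landed S22, `S22.H50.moduleFinite_heckeAlgebra`).
-/
import Fermat.Agent.S22.H50.Final
import Fermat.Agent.S35.H96.IotaInj

set_option autoImplicit false

namespace Fermat.Agent.S35.H96

/-- In the frozen S35, `iota : chig.range →+* O'` is injective. -/
theorem iota_injective {M : ℕ} [NeZero M] {S : Set ℕ} {O' : Type} [CommRing O'] [CharZero O']
    (chig : CuspForm.heckeAlgebra M 2 S →+* ℂ) (iota : chig.range →+* O') :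
    Function.Injective iota :=
  haveI := Fermat.Agent.S22.H50.moduleFinite_heckeAlgebra M 2 S
  iota_injective_of_finite chig iota

/-- `chig t ≠ 0 → χ t ≠ 0` for `χ = iota ∘ chig` (the character of `KeyStatement`). -/
theorem chi_ne_zero {M : ℕ} [NeZero M] {S : Set ℕ} {O' : Type} [CommRing O'] [CharZero O']
    (chig : CuspForm.heckeAlgebra M 2 S →+* ℂ) (iota : chig.range →+* O')
    {t : CuspForm.heckeAlgebra M 2 S} (ht : chig t ≠ 0) :
    (iota.comp chig.rangeRestrict) t ≠ 0 :=
  haveI := Fermat.Agent.S22.H50.moduleFinite_heckeAlgebra M 2 S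
  comp_rangeRestrict_ne_zero chig iota ht

/-- `χ t = 0 ↔ chig t = 0`. -/
theorem chi_eq_zero_iff {M : ℕ} [NeZero M] {S : Set ℕ} {O' : Type} [CommRing O'] [CharZero O']
    (chig : CuspForm.heckeAlgebra M 2 S →+* ℂ) (iota : chig.range →+* O')
    (t : CuspForm.heckeAlgebra M 2 S) :
    (iota.comp chig.rangeRestrict) t = 0 ↔ chig t = 0 :=
  haveI := Fermat.Agent.S22.H50.moduleFinite_heckeAlgebra M 2 S
  comp_rangeRestrict_eq_zero_iff chig iota t

end Fermat.Agent.S35.H96
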